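import Mathlib
import Fermat.Agent.M59.S38g.CTop.FramesType
import Fermat.Agent.M59.S38g.Ord.Strict
import Fermat.Agent.M59.Rp.OrdTop
import Fermat.Agent.M59.C.Present
import Fermat.Agent.FF.Car.Padic

/-!
# Project M59 (S59), box [C + S38g], ORDINARY MODE, cell [C-top-ord] (helper6; prefix `m59moc_`):
the STRICT-ORDINARY types along the tower

Twin of `M59/S38g/CTop/FramesType.lean` (helper21) at a level `N` with `p ∥ N`:

* `m59moc_IsType p Smin Th Q ρ` : `twc_IsType` with `IsFlatAt p` replaced by `IsStrictOrdinaryAt p`;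
  transport along equivalences (`m59moc_isType_of_equiv`) and along local homomorphisms
  (`m59moc_isType_map`, NO surjectivity needed); `m59moc_isType_gen` : it is a type in the sense of
  helper21's generic `m59c_IsType p Pp …` with `Pp := IsStrictOrdinaryAt p`;
* `m59moc_tres_datum` : `m59mo_IsTres` passes to the residual representation of a Hecke–Galois datum;
* `m59moc_strict_datum` : the representation of a datum of level `p ∥ Nb` is STRICTLY ordinary at `p`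
  when `ρ̄` is ordinary and très ramifiée at `p` (helper24's `m59rpk_ord_top` = banked S33, helper14's
  `m59mo_strict_of_tres`);
* `m59moc_dl_isType`, `m59moc_ft_isType_big`, `m59moc_ft_isType_level`, `m59moc_ft_unip_level`.
-/

set_option autoImplicit false
set_option linter.unusedSectionVars false
set_option linter.style.haveILetI false

open Polynomial IsLocalRing CuspForm ExtCitation
open Fermat.Agent.S53 Fermat.Agent.S56 Fermat.Agent.JT3 Fermat.Agent.TW Fermat.Agent.FF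

namespace Fermat.Agent.M59

noncomputable section

local notation "GQ" => (AlgebraicClosure ℚ ≃ₐ[ℚ] AlgebraicClosure ℚ)
local notation "Qbar" => AlgebraicClosure ℚ

attribute [local instance] S53.dualNumberAlgebra

/-! ### the strict-ordinary type -/

/-- the strict-ordinary type: `twc_IsType` with `IsStrictOrdinaryAt p` at `p`. -/
def m59moc_IsType (p : ℕ) (Smin : Finset ℕ) (Th : Finset Nat.Primes) (Q : Finset ℕ)
    {A : Type} [CommRing A] [IsLocalRing A] (ρ : GaloisRepAdic A) : Prop :=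
  ρ.DetIsCyclotomic p ∧ ρ.IsStrictOrdinaryAt p ∧
  (∀ q : ℕ, q.Prime → q ∉ Smin ∪ Th.image (fun ℓ : Nat.Primes => (ℓ : ℕ)) ∪ Q →
    ρ.IsUnramifiedAt q) ∧
  (∀ q ∈ Smin, q.Prime → q ≠ p → ρ.IsUnipotentOnInertiaAt q)

section transport

variable {A B : Type} [CommRing A] [IsLocalRing A] [CommRing B] [IsLocalRing B]

/-- `m59moc_IsType` along an equivalence. -/
theorem m59moc_isType_of_equiv {p : ℕ} {Smin : Finset ℕ} {Th : Finset Nat.Primes} {Q : Finset ℕ}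
    {ρ ρ' : GaloisRepAdic A} (e : ρ.IsEquiv ρ') (h : m59moc_IsType p Smin Th Q ρ) :
    m59moc_IsType p Smin Th Q ρ' := by
  obtain ⟨e⟩ := e
  obtain ⟨h1, h2, h3, h4⟩ := h
  exact ⟨s56t_tr_detIsCyclotomic e h1, s56t_tr_isStrictOrdinaryAt e h2,
    fun q hq hqn => s56t_tr_isUnramifiedAt e (h3 q hq hqn),
    fun q hq hqp hqne => s56t_tr_isUnipotentOnInertiaAt e (h4 q hq hqp hqne)⟩

/-- `m59moc_IsType` along the push-forward by a local homomorphism. -/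
theorem m59moc_isType_map {p : ℕ} {Smin : Finset ℕ} {Th : Finset Nat.Primes} {Q : Finset ℕ}
    (φ : A →+* B) (hφ : IsLocalHom φ) (r : FramedRep A)
    (h : m59moc_IsType p Smin Th Q r.toGaloisRepAdic) :
    m59moc_IsType p Smin Th Q (r.map φ hφ).toGaloisRepAdic := by
  refine m59moc_isType_of_equiv (FramedRep.baseChangeAlong_isEquiv φ hφ r) ?_
  obtain ⟨h1, h2, h3, h4⟩ := h
  exact ⟨s56bc_det φ hφ _ p h1, s56bc_strictOrdinary φ hφ _ p h2,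
    fun q hq hqn => s56bc_unramified φ hφ _ q (h3 q hq hqn),
    fun q hq hqp hqne => s56bc_unipotent φ hφ _ q (h4 q hq hqp hqne)⟩

end transport

/-- the strict-ordinary type is a type in the sense of block [C-gen]. -/
theorem m59moc_isType_gen {𝒪 : Type} [CommRing 𝒪] [IsLocalRing 𝒪]
    {rb : FramedResidual (ResidueField 𝒪)} {p : ℕ} {Smin : Finset ℕ} {Th : Finset Nat.Primes}
    {Q : Finset ℕ} {H : twc_HPair 𝒪 rb} (h : m59moc_IsType p Smin Th Q H.r.toGaloisRepAdic) :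
    m59c_IsType p (fun r => r.toGaloisRepAdic.IsStrictOrdinaryAt p) Smin Th Q H := by
  refine ⟨h.1, fun _ φ _ => ?_, h.2.2.1, h.2.2.2⟩
  obtain ⟨e⟩ := twc_frame_isEquiv H.r φ
  exact s56t_tr_isStrictOrdinaryAt e (s56bc_strictOrdinary _ (twc_isLocalHom φ) _ p h.2.1)

/-! ### très ramifiée: transport -/

section tres

variable {k : Type} [Field k]

/-- `m59mo_IsTres` only depends on the equivalence class. -/
theorem m59moc_tres_of_equiv {p : ℕ} {ρ₁ ρ₂ : ResidualGaloisRep k} (h : ρ₁.IsEquiv ρ₂)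
    (h2 : m59mo_IsTres p ρ₂) : m59mo_IsTres p ρ₁ := by
  obtain ⟨e⟩ := h
  intro P hP
  obtain ⟨τ, hτI, hτ1, hτρ⟩ := h2 P hP
  refine ⟨τ, hτI, hτ1, fun h1 => hτρ ?_⟩
  refine LinearMap.ext fun x => ?_
  obtain ⟨y, rfl⟩ := e.toLinearEquiv.surjective x
  have h3 := e.map_apply τ y
  rw [h1, Module.End.one_apply] at h3
  rw [Module.End.one_apply]
  exact h3.symm

/-- `m59mo_IsTres` passes to a base change. -/
theorem m59moc_tres_baseChange {k' : Type} [Field k'] [Algebra k k'] {p : ℕ}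
    {ρbar : ResidualGaloisRep k} (h : m59mo_IsTres p ρbar) :
    m59mo_IsTres p (ρbar.baseChange k') := by
  intro P hP
  obtain ⟨τ, hτI, hτ1, hτρ⟩ := h P hP
  exact ⟨τ, hτI, hτ1, fun h1 => hτρ ((twt_ci_baseChange_eq_one_iff ρbar _).mp h1)⟩

end tres

section datum

variable {𝒪 : Type} [CommRing 𝒪] [IsDomain 𝒪] [IsDiscreteValuationRing 𝒪]
  [IsAdicComplete (maximalIdeal 𝒪) 𝒪]
  {Nb : ℕ} [NeZero Nb] {S' : Finset ℕ}
  {θ : heckeAlgebra Nb 2 (↑S' : Set ℕ) →+* ResidueField 𝒪}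
  {T : Type} [CommRing T] [IsLocalRing T] [IsNoetherianRing T]
  [IsAdicComplete (maximalIdeal T) T] [Algebra 𝒪 T] [IsLocalHom (algebraMap 𝒪 T)]
  [Module.Finite 𝒪 T] [Module.Free 𝒪 T]

/-- `m59mo_IsTres` for the residual representation of a Hecke–Galois datum. -/
theorem m59moc_tres_datum (H : HeckeGaloisRepDatum Nb (↑S' : Set ℕ) 𝒪 θ T)
    (ρbar : ResidualGaloisRep (ResidueField 𝒪)) (hcompat : twt_Compat θ ρbar) {p : ℕ}
    (h : m59mo_IsTres p ρbar) : m59mo_IsTres p H.ρ.residual := by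
  refine m59moc_tres_of_equiv (twt_re_datum H ρbar hcompat) ?_
  letI : Algebra (ResidueField 𝒪) (ResidueField T) :=
    (ResidueField.map (algebraMap 𝒪 T)).toAlgebra
  exact m59moc_tres_baseChange (k' := ResidueField T) h

/-- **the representation of a datum of level `p ∥ Nb` is strictly ordinary at `p`** when `ρ̄` is
ordinary and très ramifiée at `p`. -/
theorem m59moc_strict_datum [Finite (ResidueField 𝒪)] [CharZero 𝒪] {p : ℕ} [Fact p.Prime]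
    (hp2 : p ≠ 2) (hp𝒪 : (p : 𝒪) ∈ maximalIdeal 𝒪) (hpN : p ∣ Nb ∧ ¬ p ^ 2 ∣ Nb)
    (hNS : ∀ q : ℕ, q.Prime → q ∣ Nb → q ∈ S')
    (H : HeckeGaloisRepDatum Nb (↑S' : Set ℕ) 𝒪 θ T)
    (ρbar : ResidualGaloisRep (ResidueField 𝒪)) (hcompat : twt_Compat θ ρbar)
    (hord : (GaloisRepAdic.ofResidualGaloisRep ρbar).IsOrdinaryAt p)
    (htres : m59mo_IsTres p ρbar) : H.ρ.IsStrictOrdinaryAt p := by
  have hp : p.Prime := Fact.out
  haveI : Finite (T ⧸ maximalIdeal T) := ffc_pa_finite_residue (𝒪 := 𝒪) (T := T)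
  have hfin : ∀ n : ℕ, Finite (T ⧸ maximalIdeal T ^ n) := fun n =>
    Ideal.finite_quotient_pow (IsNoetherian.noetherian _) n
  have hsep : ∀ x : T, (∀ n : ℕ, x ∈ maximalIdeal T ^ n) → x = 0 := by
    intro x hx
    have h1 : x ∈ ⨅ n : ℕ, maximalIdeal T ^ n := by
      rw [Ideal.mem_iInf]
      exact hx
    rw [Ideal.iInf_pow_eq_bot_of_isLocalRing _ (maximalIdeal.isMaximal T).ne_top] at h1
    exact h1
  exact m59mo_strict_of_tres hfin hsep H.ρ (twt_dl_det hp hp𝒪 hNS H)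
    (m59rpk_ord_top hp hp2 hp𝒪 hpN hNS H ρbar hcompat hord)
    (m59moc_tres_datum H ρbar hcompat htres)

/-- **the strict-ordinary type for a Hecke–Galois datum of level `p ∥ Nb`, with harmless primes**
(twin of `m59ct_dl_isType`). -/
theorem m59moc_dl_isType [Finite (ResidueField 𝒪)] [CharZero 𝒪] {p : ℕ} [Fact p.Prime]
    (hp2 : p ≠ 2) (hp𝒪 : (p : 𝒪) ∈ maximalIdeal 𝒪) (hpN : p ∣ Nb ∧ ¬ p ^ 2 ∣ Nb)
    (hpS : p ∈ S') (hNS : ∀ q : ℕ, q.Prime → q ∣ Nb → q ∈ S')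
    (H : HeckeGaloisRepDatum Nb (↑S' : Set ℕ) 𝒪 θ T)
    (ρbar : ResidualGaloisRep (ResidueField 𝒪)) (hcompat : twt_Compat θ ρbar)
    (hord : (GaloisRepAdic.ofResidualGaloisRep ρbar).IsOrdinaryAt p)
    (htres : m59mo_IsTres p ρbar)
    (Smin : Finset ℕ) (Th : Finset Nat.Primes) (Q : Finset ℕ) (hpSmin : p ∈ Smin)
    (hcover : ∀ q : ℕ, q.Prime → q ≠ p → q ∣ Nb →
      q ∈ Smin ∪ Th.image (fun ℓ : Nat.Primes => (ℓ : ℕ)) ∪ Q ∨
        (¬ q ^ 2 ∣ Nb ∧ ρbar.IsUnramifiedAt q ∧ m59m_IsHarmless p ρbar q))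
    (hSmin : ∀ q ∈ Smin, q.Prime → q ≠ p → q ∣ Nb ∧ ¬ q ^ 2 ∣ Nb) :
    m59moc_IsType p Smin Th Q H.ρ := by
  have hp : p.Prime := Fact.out
  refine ⟨twt_dl_det hp hp𝒪 hNS H,
    m59moc_strict_datum hp2 hp𝒪 hpN hNS H ρbar hcompat hord htres, ?_, ?_⟩
  · intro q hq hqU
    have hqp : q ≠ p := by
      rintro rfl
      exact hqU (Finset.mem_union_left _ (Finset.mem_union_left _ hpSmin))
    by_cases hqN : q ∣ Nb
    · rcases hcover q hq hqp hqN with h | ⟨hq2, hunr, hharm⟩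
      · exact absurd h hqU
      · exact m59ct_harmless p hp2 T (twt_dl_p_mem hp𝒪) H.ρ q hq hqp (twt_dl_det hp hp𝒪 hNS H)
          (twt_re_datum_unram H ρbar hcompat q hunr) (m59ct_harmless_datum H ρbar hcompat hharm)
          (twt_dl_unip hp hp𝒪 hpS hNS H q hq hqp hqN hq2)
    · exact twt_dl_unram hp hp𝒪 hpS hNS H q hq hqN hqp
  · intro q hqSmin hq hqp
    obtain ⟨h1, h2⟩ := hSmin q hqSmin hq hqp
    exact twt_dl_unip hp hp𝒪 hpS hNS H q hq hqp h1 h2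

end datum

/-! ### the types along the tower -/

section types

variable {𝒪 : Type} [CommRing 𝒪] [IsDomain 𝒪] [IsDiscreteValuationRing 𝒪]
  [IsAdicComplete (maximalIdeal 𝒪) 𝒪] [Finite (ResidueField 𝒪)] [CharZero 𝒪]
  {N : ℕ} [NeZero N] {S : Finset ℕ} {θ : heckeAlgebra N 2 (↑S : Set ℕ) →+* ResidueField 𝒪}
  {B : twe_Base 𝒪 N S θ} {p : ℕ} {Q : Finset ℕ} [NeZero (twe_Nbal N Q ∅)]
  {L : twe_Level B p Q} {ThP : Finset Nat.Primes}
  [NeZero (twe_Nbal N Q (ThP.image fun ℓ : Nat.Primes => (ℓ : ℕ)))]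

/-- `p ∥ N`, `N` squarefree, `p ∉ Q`, `p ∉ Th` ⟹ `p ∥ N ∏ t² ∏ ℓ`. -/
theorem m59moc_nbal_exact (hp : p.Prime) (hpN : p ∣ N) (hsq : Squarefree N) {Th : Finset ℕ}
    (hQ : ∀ t ∈ Q, t.Prime) (hTh : ∀ ℓ ∈ Th, ℓ.Prime) (hpQ : p ∉ Q) (hpTh : p ∉ Th) :
    p ∣ twe_Nbal N Q Th ∧ ¬ p ^ 2 ∣ twe_Nbal N Q Th :=
  ⟨dvd_trans hpN (twc_fr_N_dvd_Nbal N Q Th), twc_ft_not_sq_dvd hsq hQ hTh hp hpQ hpTh⟩

/-- **the strict-ordinary type of a framing of the big system, with harmless primes** (twin of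
`m59ct_ft_isType_big` at `p ∥ N`). -/
theorem m59moc_ft_isType_big [Fact p.Prime] (hp2 : p ≠ 2) (hp𝒪 : (p : 𝒪) ∈ maximalIdeal 𝒪)
    (hpN : p ∣ N) (hpS : p ∈ S) (hNS : ∀ ℓ : ℕ, ℓ.Prime → ℓ ∣ N → ℓ ∈ S) (hsq : Squarefree N)
    (hQ : ∀ t ∈ Q, t.Prime ∧ t ∉ S) (hThN : ∀ ℓ ∈ ThP, (ℓ : ℕ) ∣ N)
    (hThp : ∀ ℓ ∈ ThP, (ℓ : ℕ) ≠ p)
    (ρbar : ResidualGaloisRep (ResidueField 𝒪)) (hcompat : twt_Compat θ ρbar)
    (hord : (GaloisRepAdic.ofResidualGaloisRep ρbar).IsOrdinaryAt p)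
    (htres : m59mo_IsTres p ρbar)
    (Smin : Finset ℕ) (hpSmin : p ∈ Smin)
    (hcoverN : ∀ q : ℕ, q.Prime → q ≠ p → q ∣ N →
      q ∈ Smin ∪ ThP.image (fun ℓ : Nat.Primes => (ℓ : ℕ)) ∨
        (ρbar.IsUnramifiedAt q ∧ m59m_IsHarmless p ρbar q))
    (hSminN : ∀ q ∈ Smin, q.Prime → q ≠ p →
      q ∣ N ∧ q ∉ ThP.image (fun ℓ : Nat.Primes => (ℓ : ℕ)))
    (Bg : twe_Big L (ThP.image fun ℓ : Nat.Primes => (ℓ : ℕ)))
    (r'' : FramedRep Bg.T'') (h : Bg.H''.ρ.IsEquiv r''.toGaloisRepAdic) :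
    m59moc_IsType p Smin ThP Q r''.toGaloisRepAdic := by
  classical
  have hp : p.Prime := Fact.out
  have hQp : ∀ t ∈ Q, t.Prime := fun t ht => (hQ t ht).1
  have hTh := twc_ft_hTh (N := N) hThN
  have hThpr : ∀ ℓ ∈ ThP.image (fun ℓ : Nat.Primes => (ℓ : ℕ)), ℓ.Prime :=
    fun ℓ hℓ => (hTh ℓ hℓ).1
  have hNS'' := twc_ft_hNS hNS hQp hTh
  have hpQ : p ∉ Q := fun h' => (hQ p h').2 hpS
  have hpTh : p ∉ ThP.image (fun ℓ : Nat.Primes => (ℓ : ℕ)) := by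
    intro h'
    obtain ⟨ℓ', hℓ', h2⟩ := Finset.mem_image.1 h'
    exact hThp ℓ' hℓ' h2
  have hpN'' := m59moc_nbal_exact hp hpN hsq hQp hThpr hpQ hpTh
  refine m59moc_isType_of_equiv h
    (m59moc_dl_isType hp2 hp𝒪 hpN'' (Finset.mem_union_left _ hpS) hNS'' Bg.H'' ρbar
      (twlg_as_compat_big Bg ρbar hcompat) hord htres Smin ThP Q hpSmin ?_ ?_)
  · intro q hq hqp hqN
    rcases (twc_ft_prime_dvd_Nbal hQp hThpr hq).1 hqN with h'' | h'' | h''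
    · rcases hcoverN q hq hqp h'' with h3 | ⟨h3, h4⟩
      · exact Or.inl (Finset.mem_union_left _ h3)
      · by_cases hqQ : q ∈ Q
        · exact Or.inl (Finset.mem_union_right _ hqQ)
        · by_cases hqTh : q ∈ ThP.image (fun ℓ : Nat.Primes => (ℓ : ℕ))
          · exact Or.inl (Finset.mem_union_left _ (Finset.mem_union_right _ hqTh))
          · exact Or.inr ⟨twc_ft_not_sq_dvd hsq hQp hThpr hq hqQ hqTh, h3, h4⟩
    · exact Or.inl (Finset.mem_union_right _ h'')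
    · exact Or.inl (Finset.mem_union_left _ (Finset.mem_union_right _ h''))
  · intro q hqS hq hqp
    obtain ⟨hqN, hqTh⟩ := hSminN q hqS hq hqp
    have hqQ : q ∉ Q := fun h' => (hQ q h').2 (hNS q hq hqN)
    exact ⟨dvd_trans hqN (twc_fr_N_dvd_Nbal N Q _), twc_ft_not_sq_dvd hsq hQp hThpr hq hqQ hqTh⟩

/-- **the strict-ordinary type of the push-forward to the unipotent level** (twin of
`m59ct_ft_isType_level`). -/
theorem m59moc_ft_isType_level [Fact p.Prime] (hp2 : p ≠ 2) (hp𝒪 : (p : 𝒪) ∈ maximalIdeal 𝒪)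
    (hpN : p ∣ N) (hpS : p ∈ S) (hNS : ∀ ℓ : ℕ, ℓ.Prime → ℓ ∣ N → ℓ ∈ S) (hsq : Squarefree N)
    (hQ : ∀ t ∈ Q, t.Prime ∧ t ∉ S) (hThN : ∀ ℓ ∈ ThP, (ℓ : ℕ) ∣ N)
    (hThp : ∀ ℓ ∈ ThP, (ℓ : ℕ) ≠ p)
    (ρbar : ResidualGaloisRep (ResidueField 𝒪)) (hcompat : twt_Compat θ ρbar)
    (hord : (GaloisRepAdic.ofResidualGaloisRep ρbar).IsOrdinaryAt p)
    (htres : m59mo_IsTres p ρbar)
    (Smin : Finset ℕ) (hpSmin : p ∈ Smin)
    (hcoverN : ∀ q : ℕ, q.Prime → q ≠ p → q ∣ N →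
      q ∈ Smin ∪ ThP.image (fun ℓ : Nat.Primes => (ℓ : ℕ)) ∨
        (ρbar.IsUnramifiedAt q ∧ m59m_IsHarmless p ρbar q))
    (hSminN : ∀ q ∈ Smin, q.Prime → q ≠ p →
      q ∣ N ∧ q ∉ ThP.image (fun ℓ : Nat.Primes => (ℓ : ℕ)))
    (Bg : twe_Big L (ThP.image fun ℓ : Nat.Primes => (ℓ : ℕ)))
    (hloc : IsLocalHom (Bg.π1 : Bg.T'' →+* L.T'))
    (r'' : FramedRep Bg.T'') (h : Bg.H''.ρ.IsEquiv r''.toGaloisRepAdic) :
    m59moc_IsType p Smin ThP Q (r''.map (Bg.π1 : Bg.T'' →+* L.T') hloc).toGaloisRepAdic :=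
  m59moc_isType_map _ hloc r''
    (m59moc_ft_isType_big hp2 hp𝒪 hpN hpS hNS hsq hQ hThN hThp ρbar hcompat hord htres Smin
      hpSmin hcoverN hSminN Bg r'' h)

/-- **unipotent inertia at the hard primes at the unipotent level** (twin of `twc_ft_unip_level`
with `ℓ ≠ p` as a hypothesis instead of `¬ p ∣ N`). -/
theorem m59moc_ft_unip_level (hp : p.Prime) (hp𝒪 : (p : 𝒪) ∈ maximalIdeal 𝒪)
    (hpS : p ∈ S) (hNS : ∀ ℓ : ℕ, ℓ.Prime → ℓ ∣ N → ℓ ∈ S) (hsq : Squarefree N)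
    (hQ : ∀ t ∈ Q, t.Prime ∧ t ∉ S) (hThN : ∀ ℓ ∈ ThP, (ℓ : ℕ) ∣ N)
    (hThp : ∀ ℓ ∈ ThP, (ℓ : ℕ) ≠ p)
    (Bg : twe_Big L (ThP.image fun ℓ : Nat.Primes => (ℓ : ℕ)))
    (hloc : IsLocalHom (Bg.π1 : Bg.T'' →+* L.T'))
    (r'' : FramedRep Bg.T'') (h : Bg.H''.ρ.IsEquiv r''.toGaloisRepAdic)
    (ℓ : Nat.Primes) (hℓ : ℓ ∈ ThP) :
    (r''.map (Bg.π1 : Bg.T'' →+* L.T') hloc).toGaloisRepAdic.IsUnipotentOnInertiaAt (ℓ : ℕ) := by
  classical
  have hQp : ∀ t ∈ Q, t.Prime := fun t ht => (hQ t ht).1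
  have hNS' := twc_ft_hNS (Th := ∅) hNS hQp (by simp)
  have hℓN : (ℓ : ℕ) ∣ N := hThN ℓ hℓ
  have hℓQ : (ℓ : ℕ) ∉ Q := fun h' => (hQ _ h').2 (hNS _ ℓ.2 hℓN)
  exact twc_fr_level_unip hp hp𝒪 hpS hNS' Bg hloc r'' h (ℓ : ℕ) ℓ.2 (hThp ℓ hℓ)
    (dvd_trans hℓN (twc_fr_N_dvd_Nbal N Q ∅))
    (twc_ft_not_sq_dvd hsq hQp (by simp) ℓ.2 hℓQ (by simp))

end types

end

end Fermat.Agent.M59
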