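import Mathlib
import Fermat.Agent.M59.S38g.Ord.CTop.Type
import Fermat.Agent.S56.LocP.Final
import Fermat.Agent.TW.Def.Present

/-!
# Project M59 (S59), box [C + S38g], ORDINARY MODE, cell [C-top-ord] (helper6; prefix `m59moc_`):
the Taylor–Wiles primes and the cotangent bound for the STRICT-ORDINARY type (piece (T4))

Twin of main's `twc_finrank_le` (`TW/Def/Present.lean`) with `twc_IsType` (flat at `p`) replaced by
`m59moc_IsType` (strictly ordinary at `p`):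

* `m59moc_locCob` : `twc_LocNoEps td H φ` ⟹ helper21's `m59c_LocCob Th H φ` (the cocycle VANISHES on
  the decomposition groups at the hard primes: `twc_frame_coc_loc'`);
* **`m59moc_finrank_le`** : helper21's generic `m59c_finrank_le` at
  `Pp := fun r => r.toGaloisRepAdic.IsStrictOrdinaryAt p`, `hPp :=` the BANKED `s56o_final`
  (`S56/LocP/Final.lean`, no condition on `ρ̄`), weights `d ℓ := 3` (`twc_finrank_inv_of_scalar`).
-/

set_option autoImplicit false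
set_option linter.unusedSectionVars false
set_option linter.style.haveILetI false

open Polynomial IsLocalRing CuspForm ExtCitation Module
open Fermat.Agent.S53 Fermat.Agent.S56 Fermat.Agent.JT3 Fermat.Agent.TW

namespace Fermat.Agent.M59

noncomputable section

local notation "GQ" => (AlgebraicClosure ℚ ≃ₐ[ℚ] AlgebraicClosure ℚ)
local notation "Qbar" => AlgebraicClosure ℚ

attribute [local instance] S53.dualNumberAlgebra

/-- no `ε` at the hard primes ⟹ the cocycle is a coboundary (it vanishes) on their decomposition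
groups. -/
theorem m59moc_locCob {𝒪 : Type} [CommRing 𝒪] [IsLocalRing 𝒪]
    {rb : FramedResidual (ResidueField 𝒪)} {p : ℕ} [Fact p.Prime] [CharP (ResidueField 𝒪) p]
    {Th : Finset Nat.Primes} (td : twc_TameData p Th) (H : twc_HPair 𝒪 rb)
    (hrbI : ∀ ℓ ∈ Th, ∀ τ ∈ (primeLocalPlace ℓ).inertiaSubgroupIn ℚ, rb τ = 1)
    (φ : H.T →ₐ[𝒪] DualNumber (ResidueField 𝒪)) (hφ : twc_LocNoEps td H φ) :
    m59c_LocCob Th H φ := by
  intro ℓ hℓ
  refine ⟨0, Matrix.trace_zero _ _, fun σ hσ => ?_⟩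
  rw [twc_frame_coc_loc' td H φ hφ hrbI ℓ hℓ σ hσ, Matrix.mul_zero, Matrix.zero_mul, sub_zero]

/-- **the Taylor–Wiles primes and the cotangent bound, strict-ordinary type, `m59c_LocCob` form**
(the hypothesis `h4` of helper21's `m59ct_levelAsm_isType`): `m59c_finrank_le` at
`Pp := IsStrictOrdinaryAt p`, `hPp := s56o_final`, weights `3`. -/
theorem m59moc_finrank_le_cob (𝒪 : Type) [CommRing 𝒪] [IsDomain 𝒪] [IsDiscreteValuationRing 𝒪]
    [IsAdicComplete (maximalIdeal 𝒪) 𝒪] [Finite (ResidueField 𝒪)]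
    (p : ℕ) [Fact p.Prime] (hp2 : p ≠ 2) (hp𝒪 : (p : 𝒪) ∈ maximalIdeal 𝒪)
    (rb : FramedResidual (ResidueField 𝒪)) (hyp : s56a_Hyp p rb.toResidualGaloisRep)
    (S Smin : Finset ℕ) (hpSmin : p ∈ Smin) (hSmin : Smin ⊆ S)
    (hmin : ∀ q : ℕ, q.Prime → q ≠ p →
      (q ∈ Smin ↔ ¬ rb.toResidualGaloisRep.IsUnramifiedAt q))
    (Th : Finset Nat.Primes) (hThS : ∀ ℓ ∈ Th, (ℓ : ℕ) ∈ S) (hThmin : ∀ ℓ ∈ Th, (ℓ : ℕ) ∉ Smin)
    (hscal : ∀ ℓ ∈ Th, ∀ σ ∈ (primeLocalPlace ℓ).decompositionSubgroup ℚ,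
      ∃ c : ResidueField 𝒪, rb σ = Matrix.scalar (Fin 2) c) :
    ∃ r : ℕ, 3 * Th.card ≤ r ∧ ∀ n : ℕ, ∃ qv : Fin r → ℕ, Function.Injective qv ∧
      (∀ i, (qv i).Prime ∧ qv i ∉ S ∧ p ^ (n + 1) ∣ qv i - 1) ∧
      (∀ i, ∀ P : ValuationSubring Qbar, P.LiesOverPrime (qv i) →
        ∀ φ : GQ, P.IsFrobeniusAt φ (qv i) → ∃ α β : ResidueField 𝒪, α ≠ β ∧
          LinearMap.charpoly (rb.toResidualGaloisRep.ρ φ) = (X - C α) * (X - C β)) ∧
      ∀ (H : twc_HPair 𝒪 rb),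
        m59c_IsType p (fun r => r.toGaloisRepAdic.IsStrictOrdinaryAt p) Smin Th
          (Finset.univ.image qv) H →
        ∀ (ι : Type) (z : ι → maximalIdeal H.T),
          (∀ φ : H.T →ₐ[𝒪] DualNumber (ResidueField 𝒪), (∀ i, φ (z i : H.T) = 0) →
            m59c_LocCob Th H φ) →
          Module.finrank (ResidueField H.T) (CotangentSpace H.T ⧸ twc_relW 𝒪 z) ≤
            r - 3 * Th.card := by
  classical
  haveI : CharP (ResidueField 𝒪) p := s56a_charP p hp𝒪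
  letI : Algebra (ZMod p) (ResidueField 𝒪) := ZMod.algebra _ p
  have hsum : ∑ ℓ ∈ Th, (3 : ℕ) = 3 * Th.card := by
    rw [Finset.sum_const, smul_eq_mul, mul_comm]
  obtain ⟨r, hr, h⟩ := m59c_finrank_le 𝒪 p hp2 hp𝒪 rb hyp
    (fun r => r.toGaloisRepAdic.IsStrictOrdinaryAt p) S Smin hSmin
    (fun _ => s56o_final p hp2 (ResidueField 𝒪) rb) hmin Th hThS hThmin (Or.inl hpSmin)
    (fun _ => 3)
    (fun ℓ hℓ => le_trans (twc_finrank_inv_of_scalar rb _ (hscal ℓ hℓ)) (Nat.le_add_right _ _))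
  rw [hsum] at hr h
  exact ⟨r, hr, h⟩

/-- **the Taylor–Wiles primes and the cotangent bound, strict-ordinary type** (twin of
`twc_finrank_le`). -/
theorem m59moc_finrank_le (𝒪 : Type) [CommRing 𝒪] [IsDomain 𝒪] [IsDiscreteValuationRing 𝒪]
    [IsAdicComplete (maximalIdeal 𝒪) 𝒪] [Finite (ResidueField 𝒪)]
    (p : ℕ) [Fact p.Prime] (hp2 : p ≠ 2) (hp𝒪 : (p : 𝒪) ∈ maximalIdeal 𝒪)
    (rb : FramedResidual (ResidueField 𝒪)) (hyp : s56a_Hyp p rb.toResidualGaloisRep)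
    (S Smin : Finset ℕ) (hpSmin : p ∈ Smin) (hSmin : Smin ⊆ S)
    (hmin : ∀ q : ℕ, q.Prime → q ≠ p →
      (q ∈ Smin ↔ ¬ rb.toResidualGaloisRep.IsUnramifiedAt q))
    (Th : Finset Nat.Primes) (hThS : ∀ ℓ ∈ Th, (ℓ : ℕ) ∈ S) (hThmin : ∀ ℓ ∈ Th, (ℓ : ℕ) ∉ Smin)
    (hscal : ∀ ℓ ∈ Th, ∀ σ ∈ (primeLocalPlace ℓ).decompositionSubgroup ℚ,
      ∃ c : ResidueField 𝒪, rb σ = Matrix.scalar (Fin 2) c)
    (td : twc_TameData p Th) :
    ∃ r : ℕ, 3 * Th.card ≤ r ∧ ∀ n : ℕ, ∃ qv : Fin r → ℕ, Function.Injective qv ∧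
      (∀ i, (qv i).Prime ∧ qv i ∉ S ∧ p ^ (n + 1) ∣ qv i - 1) ∧
      (∀ i, ∀ P : ValuationSubring Qbar, P.LiesOverPrime (qv i) →
        ∀ φ : GQ, P.IsFrobeniusAt φ (qv i) → ∃ α β : ResidueField 𝒪, α ≠ β ∧
          LinearMap.charpoly (rb.toResidualGaloisRep.ρ φ) = (X - C α) * (X - C β)) ∧
      ∀ (H : twc_HPair 𝒪 rb),
        m59moc_IsType p Smin Th (Finset.univ.image qv) H.r.toGaloisRepAdic →
        ∀ (ι : Type) (z : ι → maximalIdeal H.T),
          (∀ φ : H.T →ₐ[𝒪] DualNumber (ResidueField 𝒪), (∀ i, φ (z i : H.T) = 0) →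
            twc_LocNoEps td H φ) →
          Module.finrank (ResidueField H.T) (CotangentSpace H.T ⧸ twc_relW 𝒪 z) ≤
            r - 3 * Th.card := by
  classical
  haveI : CharP (ResidueField 𝒪) p := s56a_charP p hp𝒪
  letI : Algebra (ZMod p) (ResidueField 𝒪) := ZMod.algebra _ p
  have hrbI := twc_rb_unram rb p Smin hpSmin hmin Th hThmin
  have hsum : ∑ ℓ ∈ Th, (3 : ℕ) = 3 * Th.card := by
    rw [Finset.sum_const, smul_eq_mul, mul_comm]
  obtain ⟨r, hr, h⟩ := m59c_finrank_le 𝒪 p hp2 hp𝒪 rb hyp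
    (fun r => r.toGaloisRepAdic.IsStrictOrdinaryAt p) S Smin hSmin
    (fun _ => s56o_final p hp2 (ResidueField 𝒪) rb) hmin Th hThS hThmin (Or.inl hpSmin)
    (fun _ => 3)
    (fun ℓ hℓ => le_trans (twc_finrank_inv_of_scalar rb _ (hscal ℓ hℓ)) (Nat.le_add_right _ _))
  rw [hsum] at hr h
  refine ⟨r, hr, fun n => ?_⟩
  obtain ⟨qv, h1, h2, h3, h4⟩ := h n
  refine ⟨qv, h1, h2, h3, fun H hType ι z hz => ?_⟩
  exact h4 H (m59moc_isType_gen hType) ι z
    (fun φ hφ => m59moc_locCob td H hrbI φ (hz φ hφ))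

end

end Fermat.Agent.M59
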