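import Mathlib
import Fermat.Agent.M59.S38g.Ord.CTop.Type
import Fermat.Agent.S53.FramedResidual

/-!
# Project M59 (S59), ORDINARY MODE (helper6; prefix `m59moc_`): ordinary Hecke pair + très ramifiée
residual representation ⟹ the STRICT-ORDINARY type (generic lemma requested by referee helper12,
ref55 (3), for case (II) of [CORE] and for (L1))

* `m59moc_tres_pair` : `m59mo_IsTres p rb` ⟹ `m59mo_IsTres p H.r.residual` for every Hecke pair
  `H : twc_HPair 𝒪 rb` (`H.lift`; `IsTres` only reads `ρ̄ τ ≠ 1`);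
* **`m59moc_pair_strict`** : `H.r` with cyclotomic determinant, ORDINARY at `p`, `rb` très ramifiée at
  `p` ⟹ `H.r` STRICTLY ordinary at `p` (helper14's `m59mo_strict_of_tres`; `H.T` is complete
  noetherian local with finite residue field);
* **`m59moc_pair_isType`** : hence `m59c_IsType p (fun r => r.toGaloisRepAdic.IsStrictOrdinaryAt p)
  Smin Th Q H` from the clauses away from `p`.
-/

set_option autoImplicit false
set_option linter.unusedSectionVars false
set_option linter.style.haveILetI false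

open Polynomial IsLocalRing CuspForm ExtCitation
open Fermat.Agent.S53 Fermat.Agent.S56 Fermat.Agent.TW

namespace Fermat.Agent.M59

noncomputable section

local notation "GQ" => (AlgebraicClosure ℚ ≃ₐ[ℚ] AlgebraicClosure ℚ)

variable {𝒪 : Type} [CommRing 𝒪] [IsLocalRing 𝒪] {rb : FramedResidual (ResidueField 𝒪)}

/-- `m59mo_IsTres` passes from `rb` to the residual representation of every Hecke pair. -/
theorem m59moc_tres_pair (H : twc_HPair 𝒪 rb) {p : ℕ}
    (h : m59mo_IsTres p rb.toResidualGaloisRep) :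
    m59mo_IsTres p H.r.toGaloisRepAdic.residual := by
  have h1 : H.r.toGaloisRepAdic.residual.IsEquiv
      (rb.toResidualGaloisRep.baseChangeAlong (ResidueField.map (algebraMap 𝒪 H.T))) :=
    FramedRep.IsLiftOf.residual_isEquiv H.lift ⟨ResidualGaloisRep.Equiv.refl _⟩
  refine m59moc_tres_of_equiv h1 ?_
  letI : Algebra (ResidueField 𝒪) (ResidueField H.T) :=
    (ResidueField.map (algebraMap 𝒪 H.T)).toAlgebra
  exact m59moc_tres_baseChange (k' := ResidueField H.T) h

/-- the residue field of a Hecke pair is finite. -/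
theorem m59moc_pair_finite_residue [Finite (ResidueField 𝒪)] (H : twc_HPair 𝒪 rb) :
    Finite (H.T ⧸ maximalIdeal H.T) := by
  have hs : Function.Surjective
      (ResidueField.map (algebraMap 𝒪 H.T) : ResidueField 𝒪 → ResidueField H.T) := by
    intro y
    obtain ⟨o, ho⟩ := H.residue_surjective y
    exact ⟨residue 𝒪 o, by rw [ResidueField.map_residue]; exact ho⟩
  exact Finite.of_surjective _ hs

/-- **ordinary pair + très ramifiée residual representation ⟹ strictly ordinary.** -/
theorem m59moc_pair_strict [Finite (ResidueField 𝒪)] (H : twc_HPair 𝒪 rb) {p : ℕ}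
    [Fact p.Prime] (hdet : H.r.toGaloisRepAdic.DetIsCyclotomic p)
    (hord : H.r.toGaloisRepAdic.IsOrdinaryAt p)
    (htres : m59mo_IsTres p rb.toResidualGaloisRep) :
    H.r.toGaloisRepAdic.IsStrictOrdinaryAt p := by
  haveI : Finite (H.T ⧸ maximalIdeal H.T) := m59moc_pair_finite_residue H
  have hfin : ∀ n : ℕ, Finite (H.T ⧸ maximalIdeal H.T ^ n) := fun n =>
    Ideal.finite_quotient_pow (IsNoetherian.noetherian _) n
  have hsep : ∀ x : H.T, (∀ n : ℕ, x ∈ maximalIdeal H.T ^ n) → x = 0 := by
    intro x hx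
    have h1 : x ∈ ⨅ n : ℕ, maximalIdeal H.T ^ n := by
      rw [Ideal.mem_iInf]
      exact hx
    rw [Ideal.iInf_pow_eq_bot_of_isLocalRing _ (maximalIdeal.isMaximal H.T).ne_top] at h1
    exact h1
  exact m59mo_strict_of_tres hfin hsep H.r.toGaloisRepAdic hdet hord (m59moc_tres_pair H htres)

/-- **the strict-ordinary type of an ordinary pair** (generic form for [CORE] case (II)). -/
theorem m59moc_pair_isType [Finite (ResidueField 𝒪)] (H : twc_HPair 𝒪 rb) {p : ℕ}
    [Fact p.Prime] {Smin : Finset ℕ} {Th : Finset Nat.Primes} {Q : Finset ℕ}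
    (hdet : H.r.toGaloisRepAdic.DetIsCyclotomic p)
    (hord : H.r.toGaloisRepAdic.IsOrdinaryAt p)
    (htres : m59mo_IsTres p rb.toResidualGaloisRep)
    (hunr : ∀ q : ℕ, q.Prime → q ∉ Smin ∪ Th.image (fun ℓ : Nat.Primes => (ℓ : ℕ)) ∪ Q →
      H.r.toGaloisRepAdic.IsUnramifiedAt q)
    (hunip : ∀ q ∈ Smin, q.Prime → q ≠ p → H.r.toGaloisRepAdic.IsUnipotentOnInertiaAt q) :
    m59c_IsType p (fun r => r.toGaloisRepAdic.IsStrictOrdinaryAt p) Smin Th Q H :=
  m59moc_isType_gen ⟨hdet, m59moc_pair_strict H hdet hord htres, hunr, hunip⟩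

end

end Fermat.Agent.M59
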