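import Fermat.Agent.M59.S38g.Ord.CTop.Count
import Fermat.Agent.M59.S38g.CTop.LevelAsmGen
import Fermat.Agent.M59.S38g.CTop.PatchLv
import Fermat.Agent.M59.S38g.Ord.M2LG
import Fermat.Agent.TW.Top.CInput

/-!
# Project M59 (S59), box [C + S38g], ORDINARY MODE, cell [C-top-ord] (helper6; prefix `m59moc_`):
the final assembly of block [C] for the [HARD] machine, ordinary mode = LEAF (L1)

`m59moc_patchLv : m59mo_M2LG_stmt → m59mo_PatchLv_stmt` (twin of helper21's `m59ct_patchLv`), hence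
`m59moc_patchLv_closed : m59mo_PatchLv_stmt` and `m59moc_machine : m59mo_Machine_stmt` (helper14's
`m59mo_m2lg`, `m59mo_machine_of_lvStmt`).

* `m59moc_ord_baseChange` : residual ordinarity along `ρ̄ ↦ ρ̄.baseChange k'`;
* `m59moc_cinput` : twin of `m59ct_cinput` in the context `m59mo_Ctx p N q S θ ρ̄ Sram` (`p ∥ N`), with
  the residual ordinarity and `m59mo_IsTres` transported to the framed `rb` over `k'`;
* the assembly: `m59moc_finrank_le_cob` (= helper21's `m59c_finrank_le` at `Pp := IsStrictOrdinaryAt p`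
  with the banked `s56o_final`), helper21's `m59ct_levelAsm_isType` at every level, the type of the
  big datum from `m59moc_ft_isType_big` (`M59/S38g/Ord/CTop/Type.lean`).
-/

set_option autoImplicit false
set_option linter.unusedSectionVars false
set_option linter.style.haveILetI false

open Polynomial CuspForm IsLocalRing ExtCitation
open Fermat.Agent.S53 Fermat.Agent.S56 Fermat.Agent.JT3
open Fermat.Agent.TW
open scoped TensorProduct

namespace Fermat.Agent.M59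

noncomputable section

local notation "GQ" => (AlgebraicClosure ℚ ≃ₐ[ℚ] AlgebraicClosure ℚ)
local notation "Qbar" => AlgebraicClosure ℚ

attribute [local instance] S53.dualNumberAlgebra

/-- residual ordinarity passes to a base change (form with a given algebra structure). -/
theorem m59moc_ord_baseChange {k k' : Type} [Field k] [Field k'] [Algebra k k']
    (ρbar : ResidualGaloisRep k) {p : ℕ}
    (h : (GaloisRepAdic.ofResidualGaloisRep ρbar).IsOrdinaryAt p) :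
    (GaloisRepAdic.ofResidualGaloisRep (ρbar.baseChange k')).IsOrdinaryAt p := by
  intro P hP
  obtain ⟨L, ⟨b, rfl⟩, hD, hI⟩ := h P hP
  refine ⟨Submodule.span k' {(1 : k') ⊗ₜ[k] b 0}, ⟨b.baseChange k', ?_⟩, ?_, ?_⟩
  · exact s56bc_span_eq b
  · intro σ hσ v hv
    exact s56bc_stable (b 0) (ρbar.ρ σ) (hD σ hσ) v hv
  · intro σ hσ v
    exact s56bc_one_sub_mem (b 0) (ρbar.ρ σ) (hI σ hσ) v

/-- **[C-INPUT] in the context of the ordinary machine** (twin of `m59ct_cinput`). -/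
theorem m59moc_cinput {p : ℕ} [Fact p.Prime] {k k' : Type} [Field k] [Field k']
    [Algebra k k'] [CharP k' p] {N q : ℕ} [NeZero N] {S : Finset ℕ}
    {θ : heckeAlgebra N 2 (↑S : Set ℕ) →+* k} {ρbar : ResidualGaloisRep k} {Sram : Finset ℕ}
    (hC : m59mo_Ctx p N q S θ ρbar Sram)
    (hq : ∀ g : k[X], g.Monic → g.natDegree = 2 →
      ∃ α β : k', g.map (algebraMap k k') = (X - C α) * (X - C β)) :
    ∃ rb : FramedResidual k',
      (ρbar.baseChange k').IsEquiv rb.toResidualGaloisRep ∧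
      s56a_Hyp p rb.toResidualGaloisRep ∧
      twt_Compat ((algebraMap k k').comp θ) rb.toResidualGaloisRep ∧
      (∀ q' : ℕ, q'.Prime → q' ≠ p →
        (q' ∈ insert p Sram ↔ ¬ rb.toResidualGaloisRep.IsUnramifiedAt q')) ∧
      (∀ ℓ ∈ m59m_Th p N Sram, (ℓ : ℕ) ∈ S) ∧
      (∀ ℓ ∈ m59m_Th p N Sram, (ℓ : ℕ) ∉ insert p Sram) ∧
      (∀ ℓ ∈ m59m_Th p N Sram, ∀ A : ValuationSubring twt_Qb, A.LiesOverPrime (ℓ : ℕ) →
        ∀ σ ∈ A.decompositionSubgroup ℚ, ∃ a : k', rb σ = Matrix.scalar (Fin 2) a) ∧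
      (∀ ℓ : ℕ, ℓ.Prime → ℓ ≠ p → ℓ ∣ N → ℓ ∉ insert p Sram → ℓ % p ≠ 1 →
        m59m_IsHarmless p rb.toResidualGaloisRep ℓ) ∧
      (GaloisRepAdic.ofResidualGaloisRep rb.toResidualGaloisRep).IsOrdinaryAt p ∧
      m59mo_IsTres p rb.toResidualGaloisRep := by
  have hN0 : N ≠ 0 := NeZero.ne N
  have hp : p.Prime := Fact.out
  have hp2 : p ≠ 2 := hC.p_ne_two
  obtain ⟨rb, hrb⟩ := exists_framedResidual (ρbar.baseChange k')
  obtain ⟨hyp', hunr', hchar'⟩ := s56am_hypEquiv p k' (ρbar.baseChange k') rb hrb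
    (twt_ci_hyp ρbar hp2 hC.NS θ hC.compat hC.abs hC.tw hq)
  have hord' : (GaloisRepAdic.ofResidualGaloisRep rb.toResidualGaloisRep).IsOrdinaryAt p :=
    m59rpk_ord_resEquiv hrb (m59moc_ord_baseChange ρbar hC.ordres)
  obtain ⟨e⟩ := hrb
  have htres' : m59mo_IsTres p rb.toResidualGaloisRep :=
    m59moc_tres_of_equiv ⟨e.symm⟩ (m59moc_tres_baseChange (k' := k') hC.tres)
  have hTh : ∀ ℓ ∈ m59m_Th p N Sram, (ℓ : ℕ) ∣ N ∧ (ℓ : ℕ) ∉ Sram ∧ (ℓ : ℕ) % p = 1 :=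
    fun ℓ hℓ => (m59m_mem_Th hN0 Sram ℓ).mp hℓ
  have hThp := m59mo_Th_spec hp hN0 Sram
  refine ⟨rb, ⟨e⟩, hyp', ?_, ?_, ?_, ?_, ?_, ?_, hord', htres'⟩
  · -- compatibility
    intro ℓ hℓ hℓN hℓS A hA σ hσ
    rw [← hchar' σ]
    exact twt_ci_compat ρbar θ hC.compat ℓ hℓ hℓN hℓS A hA σ hσ
  · -- `Smin = insert p Sram`
    intro q' hq' hqp
    rw [← hunr' q', twt_ci_unram_iff, Finset.mem_insert, ← hC.ram q' hq' hqp]
    constructor
    · rintro (h | h)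
      · exact absurd h hqp
      · exact h
    · exact fun h => Or.inr h
  · intro ℓ hℓ
    exact hC.NS ℓ ℓ.2 (hTh ℓ hℓ).1
  · intro ℓ hℓ hmem
    rw [Finset.mem_insert] at hmem
    rcases hmem with h | h
    · exact (hThp ℓ hℓ).1 h
    · exact (hTh ℓ hℓ).2.1 h
  · intro ℓ hℓ A hA σ hσ
    haveI : Fact (ℓ : ℕ).Prime := ⟨ℓ.2⟩
    have hunrℓ : ρbar.IsUnramifiedAt (ℓ : ℕ) := by
      by_contra hcon
      exact (hTh ℓ hℓ).2.1 ((hC.ram ℓ ℓ.2 (hThp ℓ hℓ).1).mpr hcon)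
    obtain ⟨c, hc⟩ := twt_ci_decomp_scalar ρbar hp (hThp ℓ hℓ).2 hunrℓ
      (hC.hard ℓ ℓ.2 (hTh ℓ hℓ).1 (hTh ℓ hℓ).2.1 (hTh ℓ hℓ).2.2) A hA σ hσ
    refine ⟨algebraMap k k' c, ?_⟩
    have hbc : ∀ x : k' ⊗[k] ρbar.V,
        (ρbar.baseChange k').ρ σ x = algebraMap k k' c • x := by
      intro x
      change (ρbar.ρ σ).baseChange k' x = _
      rw [hc]
      induction x using TensorProduct.induction_on with
      | zero => simp
      | tmul a v =>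
        rw [LinearMap.baseChange_tmul, LinearMap.smul_apply, Module.End.one_apply,
          TensorProduct.tmul_smul, algebraMap_smul]
      | add x y hx hy => rw [map_add, hx, hy, smul_add]
    have key : ∀ y : Fin 2 → k', (rb σ).mulVec y = algebraMap k k' c • y := by
      intro y
      obtain ⟨x, hx⟩ := e.toLinearEquiv.surjective (y : rb.toResidualGaloisRep.V)
      have h3 := e.map_apply σ x
      rw [hbc x, map_smul, hx] at h3
      exact h3.symm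
    ext i j
    have h6 := congrFun (key (Pi.single j 1)) i
    simp only [Matrix.mulVec_single_one, Matrix.col_apply, Pi.smul_apply, smul_eq_mul] at h6
    rw [h6, Matrix.scalar_apply, Matrix.diagonal_apply]
    by_cases hij : i = j <;> simp [hij, Pi.single_apply]
  · intro ℓ hℓ hℓp hℓN hℓS hℓ1
    have hℓram : ℓ ∉ Sram := fun h => hℓS (Finset.mem_insert_of_mem h)
    exact m59ct_harmless_of_equiv ⟨e.symm⟩
      (m59ct_harmless_baseChange (k' := k') (hC.harmless ℓ hℓ hℓp hℓN hℓram hℓ1))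

/-- **block [C] for the [HARD] machine, ordinary mode**: `m59mo_PatchLv_stmt` from block [E]. -/
theorem m59moc_patchLv (hE : m59mo_M2LG_stmt) : m59mo_PatchLv_stmt := by
  classical
  intro p hpF k _ _ _ N q _ S θ ρbar Sram hC 𝒪 _ _ _ _ _ _ _ hco
  obtain ⟨hp𝒪, ⟨ζ, hζ⟩, hquad⟩ := hco
  have hpp : p.Prime := Fact.out
  have hp2 : p ≠ 2 := hC.p_ne_two
  have hN0 : N ≠ 0 := NeZero.ne N
  have hNsq := hC.sq
  have hpN := hC.pN
  have hpS := hC.pS
  have hNS := hC.NS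
  haveI : CharP (ResidueField 𝒪) p := s56a_charP p hp𝒪
  obtain ⟨rb, -, hyp, hcompat', hmin, hThS, hThmin, hscal, hharm, hord', htres'⟩ :=
    m59moc_cinput hC hquad
  -- a uniformiser
  obtain ⟨lam, hlam⟩ : ∃ lam : 𝒪, maximalIdeal 𝒪 = Ideal.span {lam} := by
    obtain ⟨ϖ, hϖ⟩ := IsDiscreteValuationRing.exists_irreducible 𝒪
    exact ⟨ϖ, (IsDiscreteValuationRing.irreducible_iff_uniformizer ϖ).1 hϖ⟩
  -- the hard primes
  set Th : Finset Nat.Primes := m59m_Th p N Sram with hThdef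
  have hThp := m59mo_Th_spec hpp hN0 Sram
  have hTh : ∀ ℓ ∈ Th, ((ℓ : Nat.Primes) : ℕ) ∣ N ∧ ((ℓ : Nat.Primes) : ℕ) ∉ Sram ∧
      ((ℓ : Nat.Primes) : ℕ) % p = 1 := fun ℓ hℓ => (m59m_mem_Th hN0 Sram ℓ).mp hℓ
  have hscal' : ∀ ℓ ∈ Th, ∀ σ ∈ (primeLocalPlace ℓ).decompositionSubgroup ℚ,
      ∃ c : ResidueField 𝒪, rb σ = Matrix.scalar (Fin 2) c := fun ℓ hℓ σ hσ =>
    hscal ℓ hℓ (primeLocalPlace ℓ) (s56ld_liesOver ℓ) σ hσ
  have hThP : ∀ ℓ ∈ Th, ((ℓ : Nat.Primes) : ℕ) ∣ N ∧ ((ℓ : Nat.Primes) : ℕ) ∉ insert p Sram ∧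
      ((ℓ : Nat.Primes) : ℕ) % p = 1 ∧ twt_FrobScalar rb.toResidualGaloisRep ℓ := by
    intro ℓ hℓ
    refine ⟨(hTh ℓ hℓ).1, hThmin ℓ hℓ, (hTh ℓ hℓ).2.2, fun A hA σ hσ => ?_⟩
    obtain ⟨c, hc⟩ := hscal ℓ hℓ A hA σ hσ.mem_decompositionSubgroup
    refine ⟨c, ?_⟩
    apply LinearMap.ext
    intro v
    have h1 : rb.toResidualGaloisRep.ρ σ v = (rb σ).mulVec v :=
      FramedResidual.toResidualGaloisRep_ρ_apply rb σ v
    rw [h1, hc]
    funext i
    show (Matrix.scalar (Fin 2) c).mulVec v i = c • (v : Fin 2 → ResidueField 𝒪) i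
    simp [Matrix.mulVec, dotProduct, Matrix.scalar_apply, Matrix.diagonal_apply]
  -- the tame data
  set td : twc_TameData p Th := twib_td p Th hThp with htd
  have hgen : twib_InertiaGen td := twib_td_inertiaGen p Th hThp
  -- the Frobenius scalars
  have ha : ∀ ℓ : Nat.Primes, ∃ a : 𝒪, ℓ ∈ Th →
      rb (td.gφ ℓ) = Matrix.scalar (Fin 2) (residue 𝒪 a) := by
    intro ℓ
    by_cases hℓ : ℓ ∈ Th
    · obtain ⟨c, hc⟩ := hscal' ℓ hℓ (td.gφ ℓ) (td.φ_mem ℓ hℓ)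
      obtain ⟨a, rfl⟩ := residue_surjective c
      exact ⟨a, fun _ => hc⟩
    · exact ⟨0, fun h => absurd h hℓ⟩
  choose a ha using ha
  have hφa : ∀ ℓ ∈ Th, rb (td.gφ ℓ) = Matrix.scalar (Fin 2) (residue 𝒪 (a ℓ)) :=
    fun ℓ hℓ => ha ℓ hℓ
  have han : ∀ ℓ ∈ Th, a ℓ ^ 2 - (((ℓ : Nat.Primes) : ℕ) : 𝒪) ∈ maximalIdeal 𝒪 := by
    intro ℓ hℓ
    rw [← residue_eq_zero_iff, map_sub, map_pow, map_natCast, sub_eq_zero]
    exact twc_pm_sq rb hyp.hdet ℓ.2 (hThp ℓ hℓ).1 (primeLocalPlace ℓ) (s56ld_liesOver ℓ)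
      (td.gφ ℓ) (td.φ_frob ℓ hℓ) _ (hφa ℓ hℓ)
  -- block [E]
  obtain ⟨B, hB⟩ := hE p hC.hp 𝒪 hp𝒪 N hNsq hC.rigid S hpS hNS
    ((algebraMap k (ResidueField 𝒪)).comp θ) rb.toResidualGaloisRep hcompat' hyp.habs
  obtain ⟨r0, hr0e, hr0l⟩ := twc_hp_exists_framed B.H hNS rb hcompat'
  -- the Taylor-Wiles primes
  have hpSmin : p ∈ insert p Sram := Finset.mem_insert_self _ _
  have hSminN : ∀ q' ∈ insert p Sram, q'.Prime → q' ≠ p → q' ∣ N := by
    intro q' hq' _ hq'p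
    rcases Finset.mem_insert.1 hq' with h | h
    · exact absurd h hq'p
    · exact (hC.ramN q' h).2
  have hSmin : insert p Sram ⊆ S := by
    intro x hx
    rcases Finset.mem_insert.1 hx with rfl | h
    · exact hpS
    · exact hNS x (hC.ramN x h).1 (hC.ramN x h).2
  obtain ⟨r, hr, hqv⟩ := m59moc_finrank_le_cob 𝒪 p hp2 hp𝒪 rb hyp S (insert p Sram) hpSmin hSmin
    hmin Th hThS hThmin hscal'
  have hq₀ : (⟨q, hC.qp⟩ : Nat.Primes) ∈ Th :=
    (m59m_mem_Th hN0 Sram _).mpr ⟨hC.qN, hC.qram, hC.q1⟩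
  -- the type of the big datum
  have hunr : ∀ ℓ : ℕ, ℓ.Prime → ℓ ∉ insert p Sram → ℓ ≠ p →
      rb.toResidualGaloisRep.IsUnramifiedAt ℓ := by
    intro ℓ hℓ hℓS hℓp
    by_contra hcon
    exact hℓS ((hmin ℓ hℓ hℓp).2 hcon)
  have hThN : ∀ ℓ ∈ Th, ((ℓ : Nat.Primes) : ℕ) ∣ N := fun ℓ hℓ => (hTh ℓ hℓ).1
  have hThne : ∀ ℓ ∈ Th, ((ℓ : Nat.Primes) : ℕ) ≠ p := fun ℓ hℓ => (hThp ℓ hℓ).1
  have hcoverN : ∀ q' : ℕ, q'.Prime → q' ≠ p → q' ∣ N →
      q' ∈ insert p Sram ∪ Th.image (fun ℓ : Nat.Primes => (ℓ : ℕ)) ∨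
        (rb.toResidualGaloisRep.IsUnramifiedAt q' ∧
          m59m_IsHarmless p rb.toResidualGaloisRep q') := by
    intro q' hq' hq'p hq'N
    by_cases hqS : q' ∈ insert p Sram
    · exact Or.inl (Finset.mem_union_left _ hqS)
    · by_cases h1 : q' % p = 1
      · refine Or.inl (Finset.mem_union_right _ (Finset.mem_image.2 ⟨⟨q', hq'⟩, ?_, rfl⟩))
        exact (m59m_mem_Th hN0 Sram _).mpr
          ⟨hq'N, fun h => hqS (Finset.mem_insert_of_mem h), h1⟩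
      · exact Or.inr ⟨hunr q' hq' hqS hq'p, hharm q' hq' hq'p hq'N hqS h1⟩
  have hSminN2 : ∀ q' ∈ insert p Sram, q'.Prime → q' ≠ p →
      q' ∣ N ∧ q' ∉ Th.image (fun ℓ : Nat.Primes => (ℓ : ℕ)) := by
    intro q' hq' hq'pr hq'p
    refine ⟨hSminN q' hq' hq'pr hq'p, fun h => ?_⟩
    obtain ⟨ℓ', hℓ', h2⟩ := Finset.mem_image.1 h
    exact hThmin ℓ' hℓ' (h2 ▸ hq')
  refine ⟨B.T, inferInstance, inferInstance, inferInstance, inferInstance, inferInstance,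
    inferInstance, inferInstance, inferInstance, B.H, r0, lam, ↥Th, inferInstance,
    (fun ℓ => a ℓ), (fun ℓ => ((ℓ : Nat.Primes) : ℕ)), ⟨⟨q, hC.qp⟩, hq₀⟩,
    r - 3 * Th.card, r, B.d * 2 ^ r, twc_j B r, hr0e, hlam, ?_, ?_, ?_, ?_, ?_, ?_, ?_⟩
  · intro t
    exact (hTh t.1 t.2).2.2
  · intro t
    exact han t.1 t.2
  · exact hC.qp.ne_zero
  · exact hC.qp.ne_one
  · rw [Fintype.card_coe]
    omega
  · exact Nat.mul_pos B.d_pos (pow_pos (by norm_num) r)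
  · intro m
    obtain ⟨qv, inj, hqv1, hfrob, h4⟩ := hqv m
    exact m59ct_levelAsm_isType p hp2 𝒪 hp𝒪 lam hlam ζ hζ N hNsq S hpS hNS (insert p Sram) hpSmin
      hSminN ((algebraMap k (ResidueField 𝒪)).comp θ) rb hcompat' hmin Th hThP td hgen a hφa
      (fun r => r.toGaloisRepAdic.IsStrictOrdinaryAt p) B hB
      (fun Q _ _ hQ L Bg hNS'' r'' he hl =>
        m59moc_isType_gen (H := twc_hp_ofFramed Bg.H'' hNS'' rb r'' he hl)
          (m59moc_ft_isType_big hp2 hp𝒪 hpN hpS hNS hNsq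
            (fun t ht => ⟨(hQ t ht).1, (hQ t ht).2.1⟩) hThN hThne rb.toResidualGaloisRep
            hcompat' hord' htres' (insert p Sram) hpSmin hcoverN hSminN2 Bg r'' he))
      r0 hr0e hr0l r hr m qv inj hqv1 hfrob h4 ⟨⟨q, hC.qp⟩, hq₀⟩

/-- **LEAF (L1) [C-top-ord] CLOSED**: `m59mo_PatchLv_stmt`. -/
theorem m59moc_patchLv_closed : m59mo_PatchLv_stmt := m59moc_patchLv m59mo_m2lg

/-- **the native ordinary machine** `m59mo_Machine_stmt`, unconditional. -/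
theorem m59moc_machine : m59mo_Machine_stmt := m59mo_machine_of_lvStmt m59moc_patchLv_closed

end

end Fermat.Agent.M59
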